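import Fermat.Prelude.Def_ModularCurve_ArithmeticGalois
import Mathlib.Algebra.Ring.Action.Submonoid
import Mathlib.GroupTheory.Descent

/-!
# S17 (Mordell–Weil for `J₀(N)`): top wiring

`S17.result ⇐ WeakMW N 2 ∧ HeightData N` via Mathlib's descent theorem.
-/

set_option autoImplicit false
open ModularCurve AlgebraicCurve

namespace Fermat.Agent.S17

/-- The absolute Galois group of `ℚ`. -/
abbrev GQ : Type := AlgebraicClosure ℚ ≃ₐ[ℚ] AlgebraicClosure ℚ

/-- The Mordell–Weil group `J₀(N)(ℚ)`. -/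
abbrev Gam (N : ℕ) : Type := ↥(FixedPoints.addSubgroup GQ (JZero N))

/-- Weak Mordell–Weil: `Γ / nΓ` is finite. -/
def WeakMW (N n : ℕ) : Prop :=
  (nsmulAddMonoidHom (α := Gam N) n).range.FiniteIndex

/-- Existence of a quasi-quadratic height with the Northcott property. -/
def HeightData (N : ℕ) : Prop :=
  ∃ (h : Gam N → ℝ) (C : ℝ), (∀ x, 0 ≤ h x) ∧
    (∀ x y, |h (x + y) + h (x - y) - 2 * (h x + h y)| ≤ C) ∧
    (∀ B : ℝ, {x | h x ≤ B}.Finite)

theorem fg_of_contracts (N : ℕ) (h1 : WeakMW N 2) (h2 : HeightData N) :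
    AddGroup.FG (Gam N) := by
  obtain ⟨h, C, h0, hpar, hN⟩ := h2
  haveI : Northcott h := ⟨hN⟩
  exact AddCommGroup.fg_of_descent' h1 h0 hpar

end Fermat.Agent.S17
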