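import Fermat.Agent.S27.Defs
import Fermat.Agent.GAL.FF.ZeroDeg
import Fermat.Agent.S17.Top
import Fermat.Agent.S17.HT.Defs
import Fermat.Prelude.Def_AlgebraicCurve_BaseChangeGalois

/-!
# S17: shared definitions (owner helper27; append-only)

* `RatCurve` : a function field `F/ℚ̄` with a semilinear action of `G_ℚ`, a `G`-fixed place `∞`,
  Galois descent for finite dimensional subspaces, and a rational function `x` with its only
  pole at `∞`.
* `V n = L(n∞)`, `W n A = L(n∞ - A)`, rational bases `bas n`, `ratSub`, Plücker heights `subHt`,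
  `hh n A`, `lineHt`, the norm polynomial `NA A`, `eta`, `HH`.
-/

set_option autoImplicit false

noncomputable section

namespace Fermat.Agent.S17

open AlgebraicCurve ModularCurve Fermat.Agent.S24.FF Fermat.Agent.S27 Fermat.Agent.GAL.FF Polynomial

/-- `ℚ̄`. -/
abbrev Qb : Type := AlgebraicClosure ℚ

/-- A curve over `ℚ` with a rational point, in function field language. -/
structure RatCurve where
  F : Type
  [fieldF : Field F]
  [algF : Algebra Qb F]
  [ff1 : IsFF1 Qb F]
  /-- the semilinear Galois action -/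
  act : GQ →* SemilinearAut Qb F
  baseAut_act : ∀ σ : GQ, SemilinearAut.baseAut (act σ) = σ.toRingEquiv
  /-- the rational place `∞` -/
  inf : Place Qb F
  inf_fixed : ∀ σ : GQ, act σ • inf = inf
  /-- Galois descent: a finite dimensional `G`-stable subspace is spanned by `G`-fixed vectors -/
  descent : ∀ W : Submodule Qb F, Module.Finite Qb W → (∀ σ : GQ, ∀ f ∈ W, act σ • f ∈ W) →
    W ≤ Submodule.span Qb {f | f ∈ W ∧ ∀ σ : GQ, act σ • f = f}
  /-- a rational function with its only pole at `∞` -/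
  x : F
  x_fixed : ∀ σ : GQ, act σ • x = x
  x_pole : inf.ord x < 0
  x_reg : ∀ P : Place Qb F, P ≠ inf → 0 ≤ P.ord x

attribute [instance] RatCurve.fieldF RatCurve.algF RatCurve.ff1

/-! ### Plücker heights of subspaces of `ℚ^s` -/

/-- maximal minors of an `r × s` matrix. -/
def plucker {R : Type*} [CommRing R] {r s : ℕ} (Y : Matrix (Fin r) (Fin s) R) :
    (Fin r ↪o Fin s) → R := fun S => (Y.submatrix id S).det

/-- logarithmic height of a subspace of `ℚ^s` (height of its Plücker vector). -/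
def subHt {s : ℕ} (U : Submodule ℚ (Fin s → ℚ)) : ℝ :=
  Height.logHeight (plucker (Matrix.of fun i => (Module.finBasis ℚ U i : Fin s → ℚ)))

open Classical in
/-- the rational number equal to `a ∈ ℚ̄` (junk `0`). -/
def ratPart (a : Qb) : ℚ := if h : ∃ q : ℚ, algebraMap ℚ Qb q = a then h.choose else 0

/-- logarithmic height of (the coefficient vector of) a polynomial with rational coefficients. -/
def polyHt (p : Qb[X]) : ℝ :=
  Height.logHeight (fun i : Fin (p.natDegree + 1) => ratPart (p.coeff i))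

namespace RatCurve

variable (X : RatCurve)

/-- `f` is rational (fixed by `G_ℚ`). -/
def IsRat (f : X.F) : Prop := ∀ σ : GQ, X.act σ • f = f

/-- the Mordell–Weil group. -/
def Gam : AddSubgroup (Pic0 Qb X.F) where
  carrier := {x | ∀ σ : GQ, X.act σ • x = x}
  zero_mem' := fun σ => smul_zero _
  add_mem' := fun {a b} ha hb σ => by rw [smul_add, ha σ, hb σ]
  neg_mem' := fun {a} ha σ => by rw [smul_neg, ha σ]

/-- `n∞`. -/
def nInf (n : ℕ) : Divisor Qb X.F := Finsupp.single X.inf (n : ℤ)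

/-- `V n = L(n∞)`. -/
def V (n : ℕ) : Submodule Qb X.F := riemannRochSpace (X.nInf n)

/-- `W n A = L(n∞ - A)`. -/
def W (n : ℕ) (A : Divisor Qb X.F) : Submodule Qb X.F := riemannRochSpace (X.nInf n - A)

/-- `G`-stable effective divisors not containing `∞`. -/
def DD : AddSubmonoid (Divisor Qb X.F) where
  carrier := {A | 0 ≤ A ∧ A X.inf = 0 ∧ ∀ σ : GQ, X.act σ • A = A}
  zero_mem' := ⟨le_refl _, rfl, fun σ => smul_zero _⟩
  add_mem' := fun {a b} ha hb => ⟨add_nonneg ha.1 hb.1, by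
    rw [Finsupp.add_apply, ha.2.1, hb.2.1, add_zero], fun σ => by rw [smul_add, ha.2.2 σ, hb.2.2 σ]⟩

/-- degree as a natural number. -/
def degN (A : Divisor Qb X.F) : ℕ := (Divisor.degree A).toNat

/-- the class `[A - deg A · ∞]`. -/
def clD (A : Divisor Qb X.F) : Pic0 Qb X.F := cls (A - X.nInf (X.degN A))

/-- `dim V n`. -/
def dimV (n : ℕ) : ℕ := Module.finrank Qb (X.V n)

open Classical in
/-- a basis of `V n` consisting of rational functions (exists by `descent`). -/
def bas (n : ℕ) : Fin (X.dimV n) → X.F :=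
  if h : ∃ b : Module.Basis (Fin (X.dimV n)) Qb (X.V n), ∀ i, X.IsRat (b i : X.F) then
    fun i => (h.choose i : X.F)
  else fun _ => 0

/-- the element of `V n` with coordinates `t`. -/
def ofCoord {R : Type*} [CommRing R] [Algebra R Qb] (n : ℕ) (t : Fin (X.dimV n) → R) : X.F :=
  ∑ i, algebraMap R Qb (t i) • X.bas n i

/-- the `ℚ`-subspace of coordinate vectors of the rational elements of `U ∩ V n`. -/
def ratSub (n : ℕ) (U : Submodule Qb X.F) : Submodule ℚ (Fin (X.dimV n) → ℚ) where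
  carrier := {t | X.ofCoord n t ∈ U}
  zero_mem' := by simp [ofCoord]
  add_mem' := fun {a b} ha hb => by
    have : X.ofCoord n (a + b) = X.ofCoord n a + X.ofCoord n b := by
      simp [ofCoord, add_smul, Finset.sum_add_distrib]
    simpa [this] using U.add_mem ha hb
  smul_mem' := fun c a ha => by
    have : X.ofCoord n (c • a) = algebraMap ℚ Qb c • X.ofCoord n a := by
      simp [ofCoord, Finset.smul_sum, mul_smul]
    simpa [this] using U.smul_mem _ ha

/-- height of the (rational) subspace `U ≤ V n`. -/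
def spHt (n : ℕ) (U : Submodule Qb X.F) : ℝ := subHt (X.ratSub n U)

/-- `hh n A` : height of `W n A ≤ V n`. -/
def hh (n : ℕ) (A : Divisor Qb X.F) : ℝ := X.spHt n (X.W n A)

/-- height of the rational function `ℓ ∈ V n` (as a point of `ℙ(V n)`). -/
def lineHt (n : ℕ) (l : X.F) : ℝ := X.spHt n (Submodule.span Qb {l})

/-- the divisor of zeros of `ℓ` outside `∞`. -/
def Zd (l : X.F) : Divisor Qb X.F := (divOf Qb l).erase X.inf

/-- `m0` = pole order of `x`. -/
def m0 : ℕ := (-X.inf.ord X.x).toNat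

/-- `N_A = ∏_P (T - x(P))^{A(P)}`. -/
def NA (A : Divisor Qb X.F) : Qb[X] :=
  A.prod fun P e => (Polynomial.X - Polynomial.C (val P X.x)) ^ e.toNat

/-- naive height of `A` relative to `∞`. -/
def eta (A : Divisor Qb X.F) : ℝ := polyHt (X.NA A) / X.m0

/-- arithmetic Riemann–Roch height at level `n`. -/
def HH (n : ℕ) (A : Divisor Qb X.F) : ℝ := X.hh n A - Module.finrank Qb (X.W n A) * X.eta A

/-- `A, B, E` reduced and pairwise disjoint. -/
def GenPos (A B E : Divisor Qb X.F) : Prop := ∀ P, (A + B + E) P ≤ 1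

/-- multiplication of a subspace by a function. -/
def mulSp (l : X.F) (U : Submodule Qb X.F) : Submodule Qb X.F :=
  U.map (LinearMap.mulLeft Qb l)

/-! ### The global contracts of the spine HT (v2) -/

/-- (GL) heights of norm polynomials are additive up to `O(1)`. -/
def CGL : Prop := ∀ d : ℕ, ∃ C : ℝ, ∀ A ∈ X.DD, ∀ B ∈ X.DD, X.degN A ≤ d → X.degN B ≤ d →
  |X.eta (A + B) - X.eta A - X.eta B| ≤ C

/-- (CH) height of a function = naive height of its divisor of zeros. -/
def CCH : Prop := ∀ m : ℕ, ∃ C : ℝ, ∀ l ∈ X.V m, X.IsRat l → l ≠ 0 →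
  |X.lineHt m l - X.eta (X.Zd l)| ≤ C

/-- (M1) height of `ℓ · U`. -/
def CM1 : Prop := ∀ n m : ℕ, ∃ C : ℝ, ∀ l ∈ X.V m, X.IsRat l → l ≠ 0 →
  ∀ U : Submodule Qb X.F, U ≤ X.V n → (∀ σ : GQ, ∀ f ∈ U, X.act σ • f ∈ U) →
    |X.spHt (n + m) (X.mulSp l U) - (Module.finrank Qb U * X.lineHt m l + X.spHt n U)| ≤ C

/-- (CUBE) at every large level. -/
def CCube : Prop := ∀ d : ℕ, ∃ n0 : ℕ, ∀ n ≥ n0, ∃ C : ℝ, ∀ A ∈ X.DD, ∀ B ∈ X.DD, ∀ E ∈ X.DD,
  X.degN A = d → X.degN B = d → X.degN E = d → X.GenPos A B E →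
    |X.hh n (A + B + E) - X.hh n (A + B) - X.hh n (A + E) - X.hh n (B + E)
      + X.hh n A + X.hh n B + X.hh n E| ≤ C

/-- (MOV) representatives of a fixed large degree in general position. -/
def CMov : Prop := ∃ d1 : ℕ, ∀ d ≥ d1, ∀ x ∈ X.Gam, ∀ y ∈ X.Gam, ∀ z ∈ X.Gam,
  ∃ A ∈ X.DD, ∃ B ∈ X.DD, ∃ E ∈ X.DD, X.degN A = d ∧ X.degN B = d ∧ X.degN E = d ∧
    X.clD A = x ∧ X.clD B = y ∧ X.clD E = z ∧ X.GenPos A B E

/-- (NC) Northcott for `eta`. -/
def CNC : Prop := ∀ (d : ℕ) (T : ℝ), {A | A ∈ X.DD ∧ X.degN A ≤ d ∧ X.eta A ≤ T}.Finite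

end RatCurve

/-- (SI) Siegel's lemma over `ℚ`. -/
def CSiegel : Prop := ∀ s : ℕ, ∃ C : ℝ, ∀ U : Submodule ℚ (Fin s → ℚ), U ≠ ⊥ →
  ∃ t ∈ U, t ≠ 0 ∧ Module.finrank ℚ U * Height.logHeight t ≤ subHt U + C

end Fermat.Agent.S17
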